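import Mathlib.GroupTheory.CoprodI
import Mathlib.Analysis.Complex.UpperHalfPlane.MoebiusAction
import Mathlib.LinearAlgebra.Matrix.FixedDetMatrices
import Mathlib.Data.ZMod.Basic
import Mathlib.Tactic.Linarith
import Fermat.Agent.Gamma0.Coset

/-!
# `PSL(2, ℤ)` is the free product of a group of order 2 and a group of order 3

Used as a lifting property: homomorphisms out of `SL(2, ℤ)` can be defined by the images
of `S` and `ST`.
-/

open scoped MatrixGroups
open ModularGroup UpperHalfPlane

namespace Fermat.Agent.Gamma0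

/-- `S² = -1`. -/
theorem S_mul_S : (ModularGroup.S * ModularGroup.S : SL(2, ℤ)) = -1 := by decide

/-- `(ST)³ = -1`. -/
theorem ST_pow_three : (ST ^ 3 : SL(2, ℤ)) = -1 := by decide

/-- The generator `T` of `SL₂(ℤ)` in terms of the elliptic elements `S` and `ST`. -/
theorem T_eq_neg_S_mul_ST : (ModularGroup.T : SL(2, ℤ)) = -(ModularGroup.S * ST) := by decide

/-- `S` and `ST` generate `SL₂(ℤ)`. -/
theorem closure_S_ST : Subgroup.closure {ModularGroup.S, ST} = (⊤ : Subgroup SL(2, ℤ)) := by
  rw [eq_top_iff, ← SpecialLinearGroup.SL2Z_generators, Subgroup.closure_le]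
  have hS : ModularGroup.S ∈ Subgroup.closure ({ModularGroup.S, ST} : Set SL(2, ℤ)) :=
    Subgroup.subset_closure (by simp)
  rintro g (rfl | rfl)
  · exact hS
  · have h : (ModularGroup.T : SL(2, ℤ)) = ModularGroup.S⁻¹ * ST := by rw [ST, inv_mul_cancel_left]
    rw [h]
    exact mul_mem (inv_mem hS) (Subgroup.subset_closure (by simp))

/-- A homomorphism out of `Multiplicative (ZMod n)` given by an `n`-torsion element. -/
def zmodPowHom (n : ℕ) {G : Type*} [Group G] (x : G) (hx : x ^ n = 1) :
    Multiplicative (ZMod n) →* G :=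
  AddMonoidHom.toMultiplicativeLeft (ZMod.lift n ⟨zmultiplesHom (Additive G) (Additive.ofMul x), by
    show (n : ℤ) • Additive.ofMul x = 0
    rw [natCast_zsmul, ← ofMul_pow, hx, ofMul_one]⟩)

theorem zmodPowHom_ofAdd_natCast (n : ℕ) {G : Type*} [Group G] (x : G) (hx : x ^ n = 1) (k : ℕ) :
    zmodPowHom n x hx (Multiplicative.ofAdd (k : ZMod n)) = x ^ k := by
  simp [zmodPowHom]
  rw [show (k : ZMod n) = ((k : ℤ) : ZMod n) from (Int.cast_natCast k).symm, ZMod.lift_coe]
  simp

private theorem re_S_smul (z : ℍ) :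
    (ModularGroup.S • z).re = -z.re / Complex.normSq z := by
  rw [UpperHalfPlane.modular_S_smul]
  show ((-(z : ℂ))⁻¹).re = _
  rw [Complex.inv_re, Complex.normSq_neg, Complex.neg_re]
  rfl

private theorem re_T_smul (z : ℍ) : (ModularGroup.T • z).re = 1 + z.re := by
  rw [UpperHalfPlane.modular_T_smul, UpperHalfPlane.vadd_re]

/-- the action of `SL(2, ℤ)` on the upper half plane, as a homomorphism -/
private noncomputable def actHom : SL(2, ℤ) →* Equiv.Perm ℍ := MulAction.toPermHom _ _

private theorem actHom_neg_one : actHom (-1) = 1 := by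
  refine Equiv.ext fun z => ?_
  show ((-1 : SL(2, ℤ)) • z) = z
  rw [ModularGroup.SL_neg_smul, one_smul]

/-- The orders of the two free factors. -/
private abbrev ord : Bool → ℕ
  | true => 2
  | false => 3

private abbrev Fac (b : Bool) : Type := Multiplicative (ZMod (ord b))

private noncomputable def facHom : ∀ b, Fac b →* Equiv.Perm ℍ
  | true => zmodPowHom 2 (actHom ModularGroup.S)
      (by rw [← map_pow, pow_two, S_mul_S, actHom_neg_one])
  | false => zmodPowHom 3 (actHom ST) (by rw [← map_pow, ST_pow_three, actHom_neg_one])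

private def halfPlane : Bool → Set ℍ
  | true => {z | 0 < z.re}
  | false => {z | z.re < 0}

private theorem facHom_injective : Function.Injective (Monoid.CoprodI.lift facHom) := by
  -- `S T` and its square send the right half-plane into the left one, `S` the left into the right.
  have hR : ∀ z : ℍ, 0 < z.re → (ST • z).re < 0 := fun z hz => by
    rw [ST, mul_smul, re_S_smul, re_T_smul]
    exact div_neg_of_neg_of_pos (by linarith) (UpperHalfPlane.normSq_pos _)
  have hR2 : ∀ z : ℍ, 0 < z.re → ((ST * ST) • z).re < 0 := fun z hz => by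
    have hst : (ST * ST : SL(2, ℤ)) = -(ModularGroup.T⁻¹ * ModularGroup.S⁻¹) := by decide
    rw [hst, ModularGroup.SL_neg_smul, mul_smul]
    set w := ModularGroup.S⁻¹ • z with hw
    have h1 : (ModularGroup.T⁻¹ • w).re = w.re - 1 := by
      have := re_T_smul (ModularGroup.T⁻¹ • w)
      rw [smul_inv_smul] at this
      linarith
    have h2 : w.re < 0 := by
      rw [hw, ModularGroup.S_inv, ModularGroup.SL_neg_smul, re_S_smul]
      exact div_neg_of_neg_of_pos (neg_neg_of_pos hz) (UpperHalfPlane.normSq_pos _)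
    linarith
  -- Apply the ping-pong lemma to the two half-planes.
  refine Monoid.CoprodI.lift_injective_of_ping_pong facHom
    (Or.inr ⟨false, ?_⟩) halfPlane ?_ ?_ ?_
  · simp [Fac, ord]
  · rintro (_ | _)
    · exact ⟨(-1 : ℝ) +ᵥ UpperHalfPlane.I, by simp [halfPlane]⟩
    · exact ⟨(1 : ℝ) +ᵥ UpperHalfPlane.I, by simp [halfPlane]⟩
  · rintro (_ | _) (_ | _) h <;> first | exact absurd rfl h | (
      rw [Function.onFun, Set.disjoint_left]
      intro z hz hz'
      simp only [halfPlane, Set.mem_ofPred_eq] at hz hz'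
      linarith)
  · rintro (_ | _) (_ | _) hij h hh <;> try exact absurd rfl hij
    · rintro _ ⟨z, hz, rfl⟩
      have h3 : ∀ a : ZMod 3, a = 0 ∨ a = ((1 : ℕ) : ZMod 3) ∨ a = ((2 : ℕ) : ZMod 3) := by decide
      rcases h3 (Multiplicative.toAdd h) with h0 | h1 | h2
      · exact absurd (Multiplicative.toAdd.injective (h0.trans toAdd_one.symm)) hh
      · rw [show h = Multiplicative.ofAdd ((1 : ℕ) : ZMod 3) from
          Multiplicative.toAdd.injective h1]
        simp only [facHom, zmodPowHom_ofAdd_natCast, pow_one]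
        exact hR z hz
      · rw [show h = Multiplicative.ofAdd ((2 : ℕ) : ZMod 3) from
          Multiplicative.toAdd.injective h2]
        simp only [facHom, zmodPowHom_ofAdd_natCast, pow_two, ← map_mul]
        exact hR2 z hz
    · rintro _ ⟨z, hz, rfl⟩
      have h2 : ∀ a : ZMod 2, a = 0 ∨ a = ((1 : ℕ) : ZMod 2) := by decide
      rcases h2 (Multiplicative.toAdd h) with h0 | h1
      · exact absurd (Multiplicative.toAdd.injective (h0.trans toAdd_one.symm)) hh
      · rw [show h = Multiplicative.ofAdd ((1 : ℕ) : ZMod 2) from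
          Multiplicative.toAdd.injective h1]
        simp only [facHom, zmodPowHom_ofAdd_natCast, pow_one]
        show 0 < (ModularGroup.S • z).re
        rw [re_S_smul]
        exact div_pos (neg_pos.2 hz) (UpperHalfPlane.normSq_pos _)

/-- Universal property of `SL(2, ℤ) / ±1`: any pair `(s, r)` with `s² = r³ = 1` is the image of
`(S, ST)` under a homomorphism. -/
theorem exists_hom {G : Type*} [Group G] {s r : G} (hs : s ^ 2 = 1) (hr : r ^ 3 = 1) :
    ∃ ρ : SL(2, ℤ) →* G, ρ ModularGroup.S = s ∧ ρ ST = r := by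
  have hmem : ∀ g, actHom g ∈ (Monoid.CoprodI.lift facHom).range := by
    intro g
    have : Subgroup.closure {ModularGroup.S, ST} ≤
        (Monoid.CoprodI.lift facHom).range.comap actHom := by
      rw [Subgroup.closure_le]
      rintro x (rfl | rfl)
      · exact ⟨Monoid.CoprodI.of (i := true) (Multiplicative.ofAdd ((1 : ℕ) : ZMod 2)), by
          rw [Monoid.CoprodI.lift_of]
          simp only [facHom, zmodPowHom_ofAdd_natCast, pow_one]⟩
      · exact ⟨Monoid.CoprodI.of (i := false) (Multiplicative.ofAdd ((1 : ℕ) : ZMod 3)), by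
          rw [Monoid.CoprodI.lift_of]
          simp only [facHom, zmodPowHom_ofAdd_natCast, pow_one]⟩
    exact this (closure_S_ST ▸ Subgroup.mem_top g)
  let e := MonoidHom.ofInjective facHom_injective
  let tgt : ∀ b, Fac b →* G := fun b => match b with
    | true => zmodPowHom 2 s hs
    | false => zmodPowHom 3 r hr
  refine ⟨(Monoid.CoprodI.lift tgt).comp
    (e.symm.toMonoidHom.comp (actHom.codRestrict _ hmem)), ?_, ?_⟩
  · have h1 : e.symm (actHom.codRestrict _ hmem ModularGroup.S) =
        Monoid.CoprodI.of (i := true) (Multiplicative.ofAdd ((1 : ℕ) : ZMod 2)) := by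
      rw [MulEquiv.symm_apply_eq]
      refine Subtype.ext ?_
      show actHom _ = Monoid.CoprodI.lift facHom _
      rw [Monoid.CoprodI.lift_of]
      simp only [facHom, zmodPowHom_ofAdd_natCast, pow_one]
    show Monoid.CoprodI.lift tgt (e.symm _) = s
    rw [h1, Monoid.CoprodI.lift_of]
    simp only [tgt, zmodPowHom_ofAdd_natCast, pow_one]
  · have h1 : e.symm (actHom.codRestrict _ hmem ST) =
        Monoid.CoprodI.of (i := false) (Multiplicative.ofAdd ((1 : ℕ) : ZMod 3)) := by
      rw [MulEquiv.symm_apply_eq]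
      refine Subtype.ext ?_
      show actHom _ = Monoid.CoprodI.lift facHom _
      rw [Monoid.CoprodI.lift_of]
      simp only [facHom, zmodPowHom_ofAdd_natCast, pow_one]
    show Monoid.CoprodI.lift tgt (e.symm _) = r
    rw [h1, Monoid.CoprodI.lift_of]
    simp only [tgt, zmodPowHom_ofAdd_natCast, pow_one]

end Fermat.Agent.Gamma0
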