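import Mathlib.Tactic.Linarith
import Mathlib.Tactic.NormNum
import Fermat.Agent.Gamma0.Presentation

/-!
# Conjugacy classes of elements of `SL(2, ℤ)` with `|trace| ≤ 2`
-/

open scoped MatrixGroups
open ModularGroup

namespace Fermat.Agent.Gamma0

/-- Normal forms of non-hyperbolic elements, up to sign. -/
def IsStdForm (n : SL(2, ℤ)) : Prop :=
  n = ModularGroup.S ∨ n = ST ∨ n = ST * ST ∨ ∃ k : ℤ, n = ModularGroup.T ^ k

/-- `γ` is, up to sign, conjugate to a normal form. -/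
def HasStdConj (γ : SL(2, ℤ)) : Prop :=
  ∃ h n : SL(2, ℤ), IsStdForm n ∧ (h * γ * h⁻¹ = n ∨ h * γ * h⁻¹ = -n)

theorem sl_ext_entries {g h : SL(2, ℤ)} (h00 : g 0 0 = h 0 0) (h01 : g 0 1 = h 0 1)
    (h10 : g 1 0 = h 1 0) (h11 : g 1 1 = h 1 1) : g = h := by
  ext i j
  fin_cases i <;> fin_cases j <;> assumption

/-- Having a conjugate in normal form is invariant under conjugation. -/
theorem HasStdConj.conj {γ : SL(2, ℤ)} (g : SL(2, ℤ)) (h : HasStdConj (g * γ * g⁻¹)) :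
    HasStdConj γ := by
  obtain ⟨x, n, hn, hx⟩ := h
  refine ⟨x * g, n, hn, ?_⟩
  rwa [show x * g * γ * (x * g)⁻¹ = x * (g * γ * g⁻¹) * x⁻¹ by simp [mul_assoc]]

theorem HasStdConj.of_neg {γ : SL(2, ℤ)} (h : HasStdConj (-γ)) : HasStdConj γ := by
  obtain ⟨x, n, hn, hx⟩ := h
  refine ⟨x, n, hn, ?_⟩
  simp only [mul_neg, neg_mul] at hx
  rcases hx with hx | hx
  · right; rw [← hx, neg_neg]
  · left; exact neg_injective hx

theorem T_conj_entries (g : SL(2, ℤ)) (k : ℤ) :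
    (ModularGroup.T ^ k * g * (ModularGroup.T ^ k)⁻¹) 0 0 = g 0 0 + k * g 1 0 ∧
    (ModularGroup.T ^ k * g * (ModularGroup.T ^ k)⁻¹) 1 0 = g 1 0 ∧
    (ModularGroup.T ^ k * g * (ModularGroup.T ^ k)⁻¹) 1 1 = g 1 1 - k * g 1 0 := by
  rw [← zpow_neg]
  refine ⟨?_, ?_, ?_⟩ <;> simp [Matrix.mul_apply, Matrix.vecMul, dotProduct, Fin.sum_univ_two,
    coe_T_zpow]
  ring

theorem S_conj_entries (g : SL(2, ℤ)) :
    (ModularGroup.S * g * ModularGroup.S⁻¹) 0 0 = g 1 1 ∧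
    (ModularGroup.S * g * ModularGroup.S⁻¹) 1 0 = -g 0 1 ∧
    (ModularGroup.S * g * ModularGroup.S⁻¹) 1 1 = g 0 0 := by
  refine ⟨?_, ?_, ?_⟩ <;>
    simp [Matrix.mul_apply, Matrix.vecMul, dotProduct, Fin.sum_univ_two, ModularGroup.S_inv]

private theorem exists_shift {c : ℤ} (hc : c ≠ 0) (x : ℤ) : ∃ k : ℤ, |x + k * (2 * c)| ≤ |c| := by
  have hpos : 0 < 2 * |c| := by have := abs_pos.2 hc; linarith
  have h1 := Int.emod_nonneg (x + |c|) hpos.ne'
  have h2 := Int.emod_lt_of_pos (x + |c|) hpos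
  have h3 := Int.mul_ediv_add_emod (x + |c|) (2 * |c|)
  refine ⟨-((x + |c|) / (2 * |c|)) * c.sign, ?_⟩
  rw [show x + -((x + |c|) / (2 * |c|)) * c.sign * (2 * c)
      = x - (2 * |c|) * ((x + |c|) / (2 * |c|)) by
    rw [show -((x + |c|) / (2 * |c|)) * c.sign * (2 * c)
      = -((x + |c|) / (2 * |c|)) * (2 * (c.sign * c)) by ring, Int.sign_mul_self]
    simp only [Int.abs_eq_natAbs]
    ring]
  rw [abs_le]
  constructor <;> linarith

private theorem hasStdConj_of_one (γ : SL(2, ℤ)) (hc : γ 1 0 = 1)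
    (ht : |γ 0 0 + γ 1 1| ≤ 1) : HasStdConj γ := by
  rcases (by rw [abs_le] at ht; omega :
    γ 0 0 + γ 1 1 = 0 ∨ γ 0 0 + γ 1 1 = 1 ∨ γ 0 0 + γ 1 1 = -1) with h | h | h
  · refine HasStdConj.conj (ModularGroup.T ^ (-γ 0 0)) ?_
    obtain ⟨e0, e1, e2⟩ := T_conj_entries γ (-γ 0 0)
    rw [hc] at e0 e1 e2
    set g := ModularGroup.T ^ (-γ 0 0) * γ * (ModularGroup.T ^ (-γ 0 0))⁻¹
    have hd := det_eq g
    rw [e0, e1, e2] at hd
    refine ⟨1, ModularGroup.S, Or.inl rfl, Or.inl ?_⟩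
    simp only [one_mul, inv_one, mul_one]
    apply sl_ext_entries <;> simp [e0, e1, e2] <;> linarith
  · refine HasStdConj.conj (ModularGroup.T ^ (-γ 0 0)) ?_
    obtain ⟨e0, e1, e2⟩ := T_conj_entries γ (-γ 0 0)
    rw [hc] at e0 e1 e2
    set g := ModularGroup.T ^ (-γ 0 0) * γ * (ModularGroup.T ^ (-γ 0 0))⁻¹
    have hd := det_eq g
    rw [e0, e1, e2] at hd
    refine ⟨1, ST, Or.inr (Or.inl rfl), Or.inl ?_⟩
    simp only [one_mul, inv_one, mul_one]
    apply sl_ext_entries <;> simp [e0, e1, e2, coe_ST] <;> linarith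
  · refine HasStdConj.conj (ModularGroup.T ^ (-1 - γ 0 0)) ?_
    obtain ⟨e0, e1, e2⟩ := T_conj_entries γ (-1 - γ 0 0)
    rw [hc] at e0 e1 e2
    set g := ModularGroup.T ^ (-1 - γ 0 0) * γ * (ModularGroup.T ^ (-1 - γ 0 0))⁻¹
    have hd := det_eq g
    rw [e0, e1, e2] at hd
    have h11 : γ 1 1 = -1 - γ 0 0 := by linarith
    have hg01 : g 0 1 = -1 := by rw [h11] at hd; linarith
    refine ⟨1, ST * ST, Or.inr (Or.inr (Or.inl rfl)), Or.inl ?_⟩
    simp only [one_mul, inv_one, mul_one]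
    apply sl_ext_entries <;> simp [e0, e1, e2, hg01, coe_ST, h11]

theorem hasStdConj_of_trace (γ : SL(2, ℤ)) (ht : |γ 0 0 + γ 1 1| ≤ 2) : HasStdConj γ := by
  induction hm : (γ 1 0).natAbs using Nat.strong_induction_on generalizing γ with
  | _ m ih =>
    subst hm
    by_cases hc : γ 1 0 = 0
    · have hd := det_eq γ
      rw [hc, mul_zero, sub_zero] at hd
      rcases Int.eq_one_or_neg_one_of_mul_eq_one hd with ha | ha
      · refine ⟨1, ModularGroup.T ^ γ 0 1, Or.inr (Or.inr (Or.inr ⟨_, rfl⟩)), Or.inl ?_⟩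
        simp only [one_mul, inv_one, mul_one]
        rw [ha, one_mul] at hd
        apply sl_ext_entries <;> simp [coe_T_zpow, ha, hd, hc]
      · refine ⟨1, ModularGroup.T ^ (-γ 0 1), Or.inr (Or.inr (Or.inr ⟨_, rfl⟩)), Or.inr ?_⟩
        simp only [one_mul, inv_one, mul_one]
        rw [ha, neg_one_mul] at hd
        apply sl_ext_entries <;>
          simp [coe_T_zpow, ha, hc, Matrix.SpecialLinearGroup.coe_neg]
        linarith
    by_cases hsmall : |γ 1 0| = 1 ∧ |γ 0 0 + γ 1 1| ≤ 1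
    · obtain ⟨h1, h2⟩ := hsmall
      rcases (abs_eq zero_le_one).1 h1 with h | h
      · exact hasStdConj_of_one γ h h2
      · refine HasStdConj.of_neg (hasStdConj_of_one (-γ) ?_ ?_)
        · simp [Matrix.SpecialLinearGroup.coe_neg, h]
        · simp only [Matrix.SpecialLinearGroup.coe_neg, Matrix.neg_apply]
          rwa [← neg_add, abs_neg]
    -- Conjugating by `T ^ k` and then `S` lowers `|γ 1 0|`, as `4 |b c| ≤ c ^ 2 + 4 - tr ^ 2`
    -- once `|a - d| ≤ |c|`, except in the small case above.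
    obtain ⟨k, hk⟩ := exists_shift hc (γ 0 0 - γ 1 1)
    refine HasStdConj.conj (ModularGroup.T ^ k) ?_
    obtain ⟨e0, e1, e2⟩ := T_conj_entries γ k
    set g := ModularGroup.T ^ k * γ * (ModularGroup.T ^ k)⁻¹
    refine HasStdConj.conj ModularGroup.S ?_
    obtain ⟨f0, f1, f2⟩ := S_conj_entries g
    refine ih _ ?_ _ ?_ rfl
    · have hd := det_eq g
      have hk' : |g 0 0 - g 1 1| ≤ |g 1 0| := by
        rw [e0, e1, e2]
        convert hk using 2
        ring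
      have hid : 4 * (g 0 1 * g 1 0) = (g 0 0 + g 1 1) ^ 2 - 4 - (g 0 0 - g 1 1) ^ 2 := by
        linear_combination (-4 : ℤ) * hd
      have hX : 4 * (|g 0 1| * |g 1 0|) ≤ |g 1 0| ^ 2 + 4 - (g 0 0 + g 1 1) ^ 2 := by
        have hsq : (g 0 0 + g 1 1) ^ 2 ≤ 4 := by
          have htr : |g 0 0 + g 1 1| ≤ 2 := by
            rw [e0, e2]
            convert ht using 2
            ring
          rw [← sq_abs]
          nlinarith [abs_nonneg (g 0 0 + g 1 1)]
        have hle : (g 0 0 - g 1 1) ^ 2 ≤ |g 1 0| ^ 2 := by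
          rw [← sq_abs (g 0 0 - g 1 1)]
          exact pow_le_pow_left₀ (abs_nonneg _) hk' 2
        rw [← abs_mul, show (4 : ℤ) * |g 0 1 * g 1 0| = |4 * (g 0 1 * g 1 0)| by
          rw [abs_mul (4 : ℤ)]; norm_num, hid, abs_le]
        constructor <;> nlinarith [sq_nonneg (g 0 0 - g 1 1), sq_nonneg (g 1 0)]
      rw [← Int.ofNat_lt, Int.natCast_natAbs, Int.natCast_natAbs, f1, abs_neg, ← e1]
      by_contra hcon
      push Not at hcon
      have hc0 : 0 < |g 1 0| := by rw [e1]; exact abs_pos.2 hc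
      have h3 : 4 * (|g 1 0| * |g 1 0|) ≤ |g 1 0| ^ 2 + 4 - (g 0 0 + g 1 1) ^ 2 := by
        refine le_trans ?_ hX
        gcongr
      apply hsmall
      have hc1 : |g 1 0| = 1 := by nlinarith [sq_nonneg (g 0 0 + g 1 1)]
      rw [hc1] at h3
      have htr : (γ 0 0 + γ 1 1) ^ 2 ≤ 1 := by
        rw [e0, e2] at h3
        ring_nf at h3 ⊢
        linarith
      rw [e1] at hc1
      refine ⟨hc1, ?_⟩
      rw [← sq_abs] at htr
      nlinarith [abs_nonneg (γ 0 0 + γ 1 1)]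
    · rw [f0, f2, e0, e2]
      convert ht using 2
      ring

/-- An element with `|trace| ≤ 2` is, up to sign, conjugate to a normal form. -/
theorem hasStdConj_of_trace_sq (γ : SL(2, ℤ))
    (ht : (γ : Matrix (Fin 2) (Fin 2) ℤ).trace ^ 2 ≤ 4) : HasStdConj γ := by
  refine hasStdConj_of_trace γ ?_
  rw [Matrix.trace_fin_two, ← sq_abs] at ht
  nlinarith [abs_nonneg (γ 0 0 + γ 1 1)]

end Fermat.Agent.Gamma0
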