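import Fermat.Agent.Gamma0.Presentation
import Fermat.Agent.Gamma0.Conj

/-!
# Cocycles on `SL(2, ℤ) ⧸ Γ` and homomorphisms `Γ → A`

Shapiro's lemma, made explicit: a homomorphism `φ : Γ → A` killing `-1` is the restriction of a
cocycle `c : SL(2, ℤ) → (SL(2, ℤ) ⧸ Γ) → A`, and such cocycles are freely determined by
`u = c S` and `v = c ST` subject to two relations.

These are `exists_cocycle_toHom` and `exists_cocycle`.
-/

open scoped MatrixGroups
open ModularGroup

namespace Fermat.Agent.Gamma0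

variable {Γ : Subgroup SL(2, ℤ)} {A : Type*} [AddCommGroup A]

/-! ### Homomorphisms and cocycles -/

/-- homomorphisms killing all elements with `|trace| ≤ 2` -/
def ellParHoms (Γ : Subgroup SL(2, ℤ)) (A : Type*) [AddCommGroup A] :
    AddSubgroup (Additive Γ →+ A) where
  carrier := {φ | ∀ γ : Γ, ((γ : SL(2, ℤ)) : Matrix (Fin 2) (Fin 2) ℤ).trace ^ 2 ≤ 4 →
    φ (Additive.ofMul γ) = 0}
  zero_mem' := fun _ _ => rfl
  add_mem' := by
    intro φ ψ hφ hψ γ hγ
    show φ _ + ψ _ = 0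
    rw [hφ γ hγ, hψ γ hγ, add_zero]
  neg_mem' := by
    intro φ hφ γ hγ
    show -φ _ = 0
    rw [hφ γ hγ, neg_zero]

/-- `-1` acts trivially on the cosets of a subgroup containing it. -/
theorem neg_one_smul_coset (hneg : -1 ∈ Γ) (x : SL(2, ℤ) ⧸ Γ) : (-1 : SL(2, ℤ)) • x = x := by
  induction x using QuotientGroup.induction_on with | _ g => ?_
  rw [MulAction.Quotient.smul_coe, smul_eq_mul, QuotientGroup.eq, neg_one_mul]
  have : (-g)⁻¹ * g = (-1 : SL(2, ℤ)) := by
    rw [inv_mul_eq_iff_eq_mul, neg_mul_neg, mul_one]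
  rwa [this]

theorem neg_smul_coset (hneg : -1 ∈ Γ) (g : SL(2, ℤ)) (x : SL(2, ℤ) ⧸ Γ) : (-g) • x = g • x := by
  rw [← neg_one_mul, mul_smul, neg_one_smul_coset hneg]

/-- cocycles with values in functions on the coset space -/
def IsCocycle (c : SL(2, ℤ) → SL(2, ℤ) ⧸ Γ → A) : Prop :=
  ∀ g h x, c (g * h) x = c g (h • x) + c h x

namespace IsCocycle

variable {c c' : SL(2, ℤ) → SL(2, ℤ) ⧸ Γ → A}

/-- A cocycle vanishes at `1`. -/
theorem map_one (hc : IsCocycle c) (x : SL(2, ℤ) ⧸ Γ) : c 1 x = 0 := by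
  have h := hc 1 1 x
  rw [mul_one, one_smul] at h
  exact left_eq_add.1 h

/-- A cocycle satisfies `c g⁻¹ x = -c g (g⁻¹ • x)`. -/
theorem map_inv (hc : IsCocycle c) (g : SL(2, ℤ)) (x : SL(2, ℤ) ⧸ Γ) :
    c g⁻¹ x = -c g (g⁻¹ • x) := by
  have h := hc g g⁻¹ x
  rw [mul_inv_cancel, hc.map_one] at h
  exact eq_neg_of_add_eq_zero_right h.symm

/-- A cocycle is determined by its values at `S` and `ST`. -/
theorem ext_of_eq (hc : IsCocycle c) (hc' : IsCocycle c')
    (hS : c ModularGroup.S = c' ModularGroup.S) (hR : c ST = c' ST) : c = c' := by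
  let H : Subgroup SL(2, ℤ) :=
    { carrier := {g | c g = c' g}
      one_mem' := by
        funext x
        rw [hc.map_one, hc'.map_one]
      mul_mem' := by
        intro g h hg hh
        funext x
        rw [hc, hc', hg, hh]
      inv_mem' := by
        intro g hg
        funext x
        rw [hc.map_inv, hc'.map_inv, hg] }
  have hle : Subgroup.closure {ModularGroup.S, ST} ≤ H := by
    rw [Subgroup.closure_le]
    rintro g (rfl | rfl) <;> assumption
  funext g
  exact hle (closure_S_ST ▸ Subgroup.mem_top g)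

/-- the homomorphism `Γ → A` attached to a cocycle -/
def toHom (hc : IsCocycle c) : Additive Γ →+ A where
  toFun γ := c ((Additive.toMul γ : Γ) : SL(2, ℤ)) (QuotientGroup.mk 1)
  map_zero' := hc.map_one _
  map_add' γ δ := by
    show c ((Additive.toMul γ : Γ) * (Additive.toMul δ : Γ) : SL(2, ℤ)) _ = _
    rw [hc]
    congr 2
    rw [MulAction.Quotient.smul_coe, smul_eq_mul, mul_one, QuotientGroup.eq]
    simp

/-- The homomorphism of a cocycle evaluates it at the trivial coset. -/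
theorem toHom_apply (hc : IsCocycle c) (γ : Γ) :
    hc.toHom (Additive.ofMul γ) = c (γ : SL(2, ℤ)) (QuotientGroup.mk 1) :=
  rfl

/-- at a fixed point `g Γ` of `h` the cocycle is the value of the homomorphism at `g⁻¹ h g` -/
theorem eq_toHom_of_fixed (hc : IsCocycle c) {h g : SL(2, ℤ)}
    (hfix : h • (g : SL(2, ℤ) ⧸ Γ) = g) :
    ∃ γ : Γ, (γ : SL(2, ℤ)) = g⁻¹ * h * g ∧
      c h (g : SL(2, ℤ) ⧸ Γ) = hc.toHom (Additive.ofMul γ) := by
  have hmem : g⁻¹ * h * g ∈ Γ := by
    rw [MulAction.Quotient.smul_coe, smul_eq_mul, eq_comm, QuotientGroup.eq, ← mul_assoc] at hfix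
    exact hfix
  refine ⟨⟨_, hmem⟩, rfl, ?_⟩
  rw [toHom_apply]
  show _ = c (g⁻¹ * h * g) (QuotientGroup.mk 1)
  have e1 := hc h g (QuotientGroup.mk 1)
  have e2 := hc g (g⁻¹ * h * g) (QuotientGroup.mk 1)
  rw [← mul_assoc, ← mul_assoc, mul_inv_cancel, one_mul] at e2
  have hx : (g⁻¹ * h * g) • (QuotientGroup.mk 1 : SL(2, ℤ) ⧸ Γ) = QuotientGroup.mk 1 := by
    rw [MulAction.Quotient.smul_coe, smul_eq_mul, mul_one, eq_comm, QuotientGroup.eq, inv_one,
      one_mul]
    exact hmem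
  have hg : g • (QuotientGroup.mk 1 : SL(2, ℤ) ⧸ Γ) = QuotientGroup.mk g := by
    rw [MulAction.Quotient.smul_coe, smul_eq_mul, mul_one]
  rw [hx] at e2
  rw [hg] at e1
  exact (add_left_inj (c g (QuotientGroup.mk 1))).1 (e1.symm.trans (e2.trans (add_comm _ _)))

theorem map_neg_one (hc : IsCocycle c)
    (hu : ∀ x, c ModularGroup.S x + c ModularGroup.S (ModularGroup.S • x) = 0)
    (x : SL(2, ℤ) ⧸ Γ) : c (-1) x = 0 := by
  rw [← S_mul_S, hc, add_comm]
  exact hu x

/-- A cocycle with trivial value at `S ^ 2` does not see the sign. -/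
theorem map_neg (hc : IsCocycle c)
    (hu : ∀ x, c ModularGroup.S x + c ModularGroup.S (ModularGroup.S • x) = 0)
    (g : SL(2, ℤ)) (x : SL(2, ℤ) ⧸ Γ) : c (-g) x = c g x := by
  rw [← neg_one_mul, hc, hc.map_neg_one hu, zero_add]

/-- For a cocycle with trivial value at `S ^ 2`, the value at `T = -S (S T)` in terms of those at
`S` and `S T`. -/
theorem map_T (hc : IsCocycle c)
    (hu : ∀ x, c ModularGroup.S x + c ModularGroup.S (ModularGroup.S • x) = 0)
    (x : SL(2, ℤ) ⧸ Γ) :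
    c ModularGroup.T x = c ModularGroup.S (ST • x) + c ST x := by
  rw [T_eq_neg_S_mul_ST, hc.map_neg hu, hc]

/-- If `-1 ∈ Γ`, a cocycle with trivial value at `S ^ 2` is elliptic and parabolic exactly when it
vanishes at the fixed points of `S`, `S T` and the powers of `T`. -/
theorem toHom_mem_ellParHoms_iff (hneg : -1 ∈ Γ) (hc : IsCocycle c)
    (hu : ∀ x, c ModularGroup.S x + c ModularGroup.S (ModularGroup.S • x) = 0) :
    hc.toHom ∈ ellParHoms Γ A ↔
      (∀ x : SL(2, ℤ) ⧸ Γ, ModularGroup.S • x = x → c ModularGroup.S x = 0) ∧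
      (∀ x : SL(2, ℤ) ⧸ Γ, ST • x = x → c ST x = 0) ∧
      (∀ (k : ℤ) (x : SL(2, ℤ) ⧸ Γ), ModularGroup.T ^ k • x = x →
        c (ModularGroup.T ^ k) x = 0) := by
  constructor
  · intro hm
    -- The value at a fixed point is that of the hom at an elliptic or parabolic element.
    have key : ∀ (h : SL(2, ℤ)), (h : Matrix (Fin 2) (Fin 2) ℤ).trace ^ 2 ≤ 4 →
        ∀ x : SL(2, ℤ) ⧸ Γ, h • x = x → c h x = 0 := by
      intro h ht x hx
      induction x using QuotientGroup.induction_on with | _ g => ?_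
      obtain ⟨γ, hγ, hcγ⟩ := hc.eq_toHom_of_fixed hx
      rw [hcγ]
      refine hm γ ?_
      rw [hγ, Matrix.SpecialLinearGroup.coe_mul, Matrix.trace_mul_comm,
        ← Matrix.SpecialLinearGroup.coe_mul, ← mul_assoc, mul_inv_cancel, one_mul]
      exact ht
    refine ⟨key _ (by simp [Matrix.trace_fin_two]), key _ (by simp [coe_ST, Matrix.trace_fin_two]),
      fun k => key _ (by simp [coe_T_zpow, Matrix.trace_fin_two])⟩
  · rintro ⟨h2, h3, hp⟩ γ hγ
    -- Conversely such an element is conjugate up to sign to `S`, `ST`, `(ST) ^ 2` or `T ^ k`.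
    obtain ⟨h, n, hn, hh⟩ := hasStdConj_of_trace_sq (γ : SL(2, ℤ)) hγ
    set g : SL(2, ℤ) := h
    have hfix' : (h * (γ : SL(2, ℤ)) * h⁻¹) • (h : SL(2, ℤ) ⧸ Γ) = h := by
      rw [MulAction.Quotient.smul_coe, smul_eq_mul, inv_mul_cancel_right, QuotientGroup.eq]
      simp
    have hfix : n • (h : SL(2, ℤ) ⧸ Γ) = h := by
      rcases hh with hh | hh <;> rw [hh] at hfix'
      · exact hfix'
      · rwa [neg_smul_coset hneg] at hfix'
    -- Its value is then the value of `c` at that element, at a fixed coset.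
    obtain ⟨δ, hδ, hcδ⟩ := hc.eq_toHom_of_fixed hfix'
    have hδγ : δ = γ := Subtype.ext (by rw [hδ]; simp [mul_assoc])
    rw [hδγ] at hcδ
    rw [← hcδ]
    have hcn : c (h * (γ : SL(2, ℤ)) * h⁻¹) (h : SL(2, ℤ) ⧸ Γ) =
        c n (h : SL(2, ℤ) ⧸ Γ) := by
      rcases hh with hh | hh <;> rw [hh]
      exact hc.map_neg hu _ _
    rw [hcn]
    rcases hn with rfl | rfl | rfl | ⟨k, rfl⟩
    · exact h2 _ hfix
    · exact h3 _ hfix
    · have hfix3 : ST • (h : SL(2, ℤ) ⧸ Γ) = h := by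
        have h' : (ST ^ 3) • (h : SL(2, ℤ) ⧸ Γ) = h := by
          rw [ST_pow_three, neg_one_smul_coset hneg]
        rw [pow_succ', pow_two, mul_smul, hfix] at h'
        exact h'
      rw [hc, hfix3, h3 _ hfix3, add_zero]
    · exact hp k _ hfix

end IsCocycle

/-! ### Cocycles from their values at `S` and `ST` -/

/-- the relations satisfied by `u = c S`, `v = c ST` -/
def IsRelPair (u v : SL(2, ℤ) ⧸ Γ → A) : Prop :=
  (∀ x, u x + u (ModularGroup.S • x) = 0) ∧ ∀ x, v x + v (ST • x) + v (ST • ST • x) = 0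

/-- Values at `S` and `ST` satisfying the two relations extend to a cocycle. -/
theorem exists_cocycle (hneg : -1 ∈ Γ) {u v : SL(2, ℤ) ⧸ Γ → A} (h : IsRelPair u v) :
    ∃ c, IsCocycle c ∧ c ModularGroup.S = u ∧ c ST = v := by
  obtain ⟨hu, hv⟩ := h
  have hSS : ∀ x : SL(2, ℤ) ⧸ Γ, ModularGroup.S • ModularGroup.S • x = x := fun x => by
    rw [← mul_smul, S_mul_S, neg_one_smul_coset hneg]
  have hRRR : ∀ x : SL(2, ℤ) ⧸ Γ, ST • ST • ST • x = x := fun x => by
    rw [← mul_smul, ← mul_smul, ← pow_two, ← pow_succ, ST_pow_three, neg_one_smul_coset hneg]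
  -- Lift `S` and `ST` to permutations of cosets times `A`, of orders dividing `2` and `3`.
  let fs : (SL(2, ℤ) ⧸ Γ) × A → (SL(2, ℤ) ⧸ Γ) × A :=
    fun p => (ModularGroup.S • p.1, u p.1 + p.2)
  let fr : (SL(2, ℤ) ⧸ Γ) × A → (SL(2, ℤ) ⧸ Γ) × A := fun p => (ST • p.1, v p.1 + p.2)
  have hfs : Function.Involutive fs := fun p => Prod.ext (hSS p.1) (by
    show u (ModularGroup.S • p.1) + (u p.1 + p.2) = p.2
    rw [← add_assoc, add_comm (u _) (u _), hu, zero_add])
  have hfr : ∀ p, fr (fr (fr p)) = p := fun p => Prod.ext (hRRR p.1) (by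
    show v (ST • ST • p.1) + (v (ST • p.1) + (v p.1 + p.2)) = p.2
    rw [← add_assoc, ← add_assoc, add_comm (v (ST • ST • p.1)), add_comm _ (v p.1), ← add_assoc,
      hv, zero_add])
  let s : Equiv.Perm ((SL(2, ℤ) ⧸ Γ) × A) := hfs.toPerm
  let r : Equiv.Perm ((SL(2, ℤ) ⧸ Γ) × A) := ⟨fr, fun p => fr (fr p), hfr, hfr⟩
  have hs : s ^ 2 = 1 := Equiv.ext fun p => hfs p
  have hr : r ^ 3 = 1 := Equiv.ext fun p => hfr p
  -- This gives an action of `SL(2, ℤ)`, translations in the second coordinate by induction.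
  obtain ⟨ρ, hρS, hρR⟩ := exists_hom hs hr
  let H : Subgroup SL(2, ℤ) :=
    { carrier := {g | ∀ x a, ρ g (x, a) = (g • x, (ρ g (x, 0)).2 + a)}
      one_mem' := by intro x a; simp
      mul_mem' := by
        intro g g' hg hg' x a
        simp only [map_mul, Equiv.Perm.mul_apply, mul_smul]
        have e0 : ρ g' (x, 0) = (g' • x, (ρ g' (x, 0)).2) :=
          Prod.ext (congrArg Prod.fst (hg' x 0) :) rfl
        rw [hg' x a, hg]
        conv_rhs => rw [e0, hg]
        simp [add_assoc]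
      inv_mem' := by
        intro g hg x a
        have key : ∀ a, ρ g⁻¹ (x, a) = (g⁻¹ • x, a - (ρ g (g⁻¹ • x, 0)).2) := by
          intro a
          rw [map_inv, Equiv.Perm.inv_eq_iff_eq, hg, smul_inv_smul]
          simp
        rw [key a, key 0]
        simp [sub_eq_add_neg, add_comm] }
  have hle : Subgroup.closure {ModularGroup.S, ST} ≤ H := by
    rw [Subgroup.closure_le]
    rintro g (rfl | rfl) <;> intro x a
    · rw [hρS]
      show (ModularGroup.S • x, u x + a) = (ModularGroup.S • x, (u x + 0) + a)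
      rw [add_zero]
    · rw [hρR]
      show (ST • x, v x + a) = (ST • x, (v x + 0) + a)
      rw [add_zero]
  have hP : ∀ g x a, ρ g (x, a) = (g • x, (ρ g (x, 0)).2 + a) := fun g =>
    hle (closure_S_ST ▸ Subgroup.mem_top g)
  -- Its translation part at `(x, 0)` is the cocycle.
  refine ⟨fun g x => (ρ g (x, 0)).2, ?_, ?_, ?_⟩
  · intro g g' x
    show (ρ (g * g') (x, 0)).2 = _
    rw [map_mul, Equiv.Perm.mul_apply, hP g' x 0, hP g]
    simp
  · funext x
    show (ρ ModularGroup.S (x, 0)).2 = u x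
    rw [hρS]
    exact add_zero _
  · funext x
    show (ρ ST (x, 0)).2 = v x
    rw [hρR]
    exact add_zero _

/-! ### Shapiro's lemma -/

/-- Shapiro: a homomorphism on `Γ` killing `-1` comes from a cocycle. -/
theorem exists_cocycle_toHom (hneg : -1 ∈ Γ) (φ : Additive Γ →+ A)
    (hφ : φ (Additive.ofMul ⟨-1, hneg⟩) = 0) :
    ∃ (c : SL(2, ℤ) → SL(2, ℤ) ⧸ Γ → A) (hc : IsCocycle c),
      IsRelPair (c ModularGroup.S) (c ST) ∧ hc.toHom = φ := by
  have hmem : ∀ (g : SL(2, ℤ)) (x : SL(2, ℤ) ⧸ Γ), (g • x).out⁻¹ * g * x.out ∈ Γ := by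
    intro g x
    rw [mul_assoc, ← QuotientGroup.eq, QuotientGroup.out_eq', ← smul_eq_mul,
      ← MulAction.Quotient.smul_coe, QuotientGroup.out_eq']
  let c : SL(2, ℤ) → SL(2, ℤ) ⧸ Γ → A := fun g x => φ (Additive.ofMul ⟨_, hmem g x⟩)
  have hc : IsCocycle c := by
    intro g h x
    show φ _ = φ _ + φ _
    rw [← map_add, ← ofMul_mul]
    refine congrArg (fun a : Γ => φ (Additive.ofMul a)) (Subtype.ext ?_)
    simp [mul_smul, mul_assoc]
  have hneg' : ∀ x, c (-1) x = 0 := by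
    intro x
    show φ _ = 0
    refine Eq.trans ?_ hφ
    refine congrArg (fun a : Γ => φ (Additive.ofMul a)) (Subtype.ext ?_)
    simp [neg_one_smul_coset hneg]
  have hh : ∀ x, c (ST ^ 3) x = 0 := by rw [ST_pow_three]; exact hneg'
  refine ⟨c, hc, ⟨fun x => ?_, fun x => ?_⟩, ?_⟩
  · rw [add_comm, ← hc, S_mul_S]
    exact hneg' x
  · rw [← hh x, pow_succ, pow_two, hc, hc]
    abel
  · refine AddMonoidHom.ext fun γ => ?_
    show φ _ = φ γ
    set δ : Γ := Additive.toMul γ with hδ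
    have hfix : (δ : SL(2, ℤ)) • (QuotientGroup.mk 1 : SL(2, ℤ) ⧸ Γ) = QuotientGroup.mk 1 := by
      rw [MulAction.Quotient.smul_coe, smul_eq_mul, mul_one, QuotientGroup.eq]
      simp
    have h1 : ((QuotientGroup.mk 1 : SL(2, ℤ) ⧸ Γ)).out ∈ Γ := by
      have := QuotientGroup.out_eq' (QuotientGroup.mk 1 : SL(2, ℤ) ⧸ Γ)
      rw [eq_comm, QuotientGroup.eq, inv_one, one_mul] at this
      exact this
    set o : Γ := ⟨_, h1⟩ with ho
    refine Eq.trans (b := φ (Additive.ofMul (o⁻¹ * δ * o))) ?_ ?_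
    · refine congrArg (fun a : Γ => φ (Additive.ofMul a)) (Subtype.ext ?_)
      simp [hfix, ho]
    · rw [ofMul_mul, ofMul_mul, ofMul_inv, map_add, map_add, _root_.map_neg, hδ, ofMul_toMul]
      abel

/-- A cocycle restricts to zero on `Γ` iff it is a coboundary. -/
theorem IsCocycle.toHom_eq_zero_iff {c : SL(2, ℤ) → SL(2, ℤ) ⧸ Γ → A} (hc : IsCocycle c) :
    hc.toHom = 0 ↔ ∃ f : SL(2, ℤ) ⧸ Γ → A, ∀ g x, c g x = f (g • x) - f x := by
  constructor
  · intro h
    refine ⟨fun x => c x.out (QuotientGroup.mk 1), fun g x => ?_⟩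
    have hout : ∀ y : SL(2, ℤ) ⧸ Γ, y.out • (QuotientGroup.mk 1 : SL(2, ℤ) ⧸ Γ) = y := fun y => by
      rw [MulAction.Quotient.smul_coe, smul_eq_mul, mul_one, QuotientGroup.out_eq']
    have hmem : (g • x).out⁻¹ * (g * x.out) ∈ Γ := by
      rw [← QuotientGroup.eq, QuotientGroup.out_eq', ← smul_eq_mul,
        ← MulAction.Quotient.smul_coe, QuotientGroup.out_eq']
    have hfix : ((g • x).out⁻¹ * (g * x.out)) • (QuotientGroup.mk 1 : SL(2, ℤ) ⧸ Γ) =
        QuotientGroup.mk 1 := by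
      rw [MulAction.Quotient.smul_coe, smul_eq_mul, mul_one, eq_comm, QuotientGroup.eq, inv_one,
        one_mul]
      exact hmem
    have h0 : c ((g • x).out⁻¹ * (g * x.out)) (QuotientGroup.mk 1) = 0 :=
      congrArg (fun ψ : Additive Γ →+ A => ψ (Additive.ofMul ⟨_, hmem⟩)) h
    have e1 := hc g x.out (QuotientGroup.mk 1)
    have e2 := hc (g • x).out ((g • x).out⁻¹ * (g * x.out)) (QuotientGroup.mk 1)
    rw [← mul_assoc (g • x).out, mul_inv_cancel, one_mul, hfix, h0, add_zero] at e2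
    rw [hout] at e1
    show _ = c (g • x).out _ - c x.out _
    rw [← e2, e1, add_sub_cancel_right]
  · rintro ⟨f, hf⟩
    refine AddMonoidHom.ext fun γ => ?_
    show c _ _ = 0
    rw [hf, sub_eq_zero]
    congr 1
    rw [MulAction.Quotient.smul_coe, smul_eq_mul, mul_one, QuotientGroup.eq]
    simp

end Fermat.Agent.Gamma0
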